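/-
helper71, P-ORD, block B1, input of [DVR] (row 1158): the component `C_∞` of the special fibre of
the model of `X₀(M q)` is NORMAL at every closed point of the chart `j` - number-field core over
ANY discrete valuation ring `A₀` (ramified bases allowed, uniformiser `ϖ`).

* `compVal_abs` (abstract, two levels): FRAC + `ValAt` of the lower level at (an ideal containing)
  the contraction of `𝔪` ⟹ the image of `B(y)_𝔪` in the residue field of `V` is a valuation
  ring: of two elements `a, c ∈ B(y)` one divides the other modulo `𝔪_V`, locally at `𝔪`.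
* `ModelCompValStatement M q R` : the model form (chart `j`, component `∞`, fields `K₁ ⊇ μ_R`):
  at every maximal ideal `𝔪 ∋ ϖ` of `B(j)` through `V_∞` :
  (FRAC-loc) every `z ∈ B` is `α(a) / α(b)` modulo `𝔪_{V_∞}` with `α(b) ∈ B ∖ 𝔪`, and
  (VAL) for `a, c ∈ B` there are `t, d ∈ B`, `d ∉ 𝔪`, with `d a ≡ t c` or `d c ≡ t a`
  modulo `𝔪_{V_∞}`.
* `modelCompVal_of_levelVal`, `modelCompVal_aux` (UNCONDITIONAL at every auxiliary pair,
  `R = ktAuxRoot M q`).
-/
import Fermat.Agent.H71.SS.KtFracModel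

set_option autoImplicit false
set_option linter.unusedSectionVars false
set_option linter.unusedVariables false
set_option linter.style.haveILetI false

noncomputable section

namespace Fermat.Agent.H71.ORD

open Polynomial ModularCurve AlgebraicCurve
open Fermat.Agent.H22.KL Fermat.Agent.H66 Fermat.Agent.H55.SS Fermat.Agent.H82.SS
open Fermat.Agent.H11.SS2 Fermat.Agent.H67.SS Fermat.Agent.H7.SS Fermat.Agent.H7.SS2
open Fermat.Agent.H41.SS Fermat.Agent.H71.SS

section Abs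

variable {A : Type} [CommRing A]
  {E' : Type} [Field E'] [Algebra A E']
  {E : Type} [Field E] [Algebra A E]

/-- The algebraic identity behind `compVal_abs`. -/
theorem compVal_identity {S : Type} [CommRing S] (a c da ta dc tc d' t' e p : S)
    (he : d' * (ta * dc) = t' * (tc * da) + p * e) :
    (d' * dc * da) * a - (t' * da * dc) * c =
      d' * dc * (da * a - ta) - t' * da * (dc * c - tc) + p * e := by
  linear_combination he

/-- **The component is normal at `𝔪`** (abstract, two levels).  Same hypotheses as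
`Fermat.Agent.H71.SS.ktfl_fracLocal_abs`. -/
theorem compVal_abs
    (ι : E' →+* E) (hι : ∀ a : A, ι (algebraMap A E' a) = algebraMap A E a)
    (ϖ : A) (y' : E') (y : E)
    (𝔪 : Ideal ↥(chartClosure A E y)) [h𝔪 : 𝔪.IsPrime]
    (V : ValuationSubring E)
    (hBV : ∀ s : ↥(chartClosure A E y), (s : E) ∈ V)
    (hϖV : algebraMap A E ϖ ∈ V.nonunits)
    (hV : Through A E y 𝔪 V)
    (hιB : ∀ s' : ↥(chartClosure A E' y'), ι (s' : E') ∈ chartClosure A E y)
    (hFRAC : ∀ s : ↥(chartClosure A E y), ∃ a' c' : ↥(chartClosure A E' y'),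
      ι (c' : E') ∉ V.nonunits ∧ ι (c' : E') * (s : E) - ι (a' : E') ∈ V.nonunits)
    (𝔫 : Ideal ↥(chartClosure A E' y'))
    (h𝔫 : ∀ d : ↥(chartClosure A E' y'), d ∉ 𝔫 →
      (⟨ι (d : E'), hιB d⟩ : ↥(chartClosure A E y)) ∉ 𝔪)
    (hval : ValAt A E' ϖ y' 𝔫)
    (a c : ↥(chartClosure A E y)) :
    (∃ t d : ↥(chartClosure A E y), d ∉ 𝔪 ∧ (d : E) * (a : E) - (t : E) * (c : E) ∈ V.nonunits) ∨
    (∃ t d : ↥(chartClosure A E y), d ∉ 𝔪 ∧
      (d : E) * (c : E) - (t : E) * (a : E) ∈ V.nonunits) := by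
  obtain ⟨ta, da, hda, hra⟩ :=
    ktfl_fracLocal_abs ι hι ϖ y' y 𝔪 V hBV hϖV hV hιB hFRAC 𝔫 h𝔫 hval a
  obtain ⟨tc, dc, hdc, hrc⟩ :=
    ktfl_fracLocal_abs ι hι ϖ y' y 𝔪 V hBV hϖV hV hιB hFRAC 𝔫 h𝔫 hval c
  have hιV : ∀ s' : ↥(chartClosure A E' y'), ι (s' : E') ∈ V := fun s' => hBV ⟨_, hιB s'⟩
  have hϖe : ∀ e : ↥(chartClosure A E' y'), algebraMap A E ϖ * ι (e : E') ∈ V.nonunits := by
    intro e
    rw [mul_comm]
    exact nu_mul_left V (hιV e) hϖV
  -- transport of an identity of the lower level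
  have htrans : ∀ d' t' u v e : ↥(chartClosure A E' y'),
      d' * u = t' * v + algebraMap A ↥(chartClosure A E' y') ϖ * e →
      ι (d' : E') * ι (u : E') = ι (t' : E') * ι (v : E') + algebraMap A E ϖ * ι (e : E') := by
    intro d' t' u v e he
    have h1 : ι ((d' * u : ↥(chartClosure A E' y')) : E') =
        ι ((t' * v + algebraMap A ↥(chartClosure A E' y') ϖ * e :
          ↥(chartClosure A E' y')) : E') := by rw [he]
    have e1 : ((d' * u : ↥(chartClosure A E' y')) : E') = (d' : E') * (u : E') := rfl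
    have e2 : ((t' * v + algebraMap A ↥(chartClosure A E' y') ϖ * e :
        ↥(chartClosure A E' y')) : E') =
        (t' : E') * (v : E') + algebraMap A E' ϖ * (e : E') := rfl
    rw [e1, e2, map_mul, map_add, map_mul, map_mul, hι] at h1
    exact h1
  have hprod : ∀ u v : ↥(chartClosure A E' y'),
      (⟨ι (u : E'), hιB u⟩ : ↥(chartClosure A E y)) ∉ 𝔪 →
      (⟨ι (v : E'), hιB v⟩ : ↥(chartClosure A E y)) ∉ 𝔪 →
      (⟨ι (u : E'), hιB u⟩ * ⟨ι (v : E'), hιB v⟩ : ↥(chartClosure A E y)) ∉ 𝔪 := by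
    intro u v hu hv hmem
    rcases h𝔪.mem_or_mem hmem with h | h
    · exact hu h
    · exact hv h
  rcases hval (ta * dc) (tc * da) with ⟨t', d', hd', e, he⟩ | ⟨t', d', hd', e, he⟩
  · left
    have he' := htrans d' t' (ta * dc) (tc * da) e he
    refine ⟨⟨ι (t' : E'), hιB t'⟩ * ⟨ι (da : E'), hιB da⟩ * ⟨ι (dc : E'), hιB dc⟩,
      ⟨ι (d' : E'), hιB d'⟩ * ⟨ι (dc : E'), hιB dc⟩ * ⟨ι (da : E'), hιB da⟩, ?_, ?_⟩
    · intro hmem
      rcases h𝔪.mem_or_mem hmem with h | h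
      · exact hprod d' dc (h𝔫 d' hd') hdc h
      · exact hda h
    · show (ι (d' : E') * ι (dc : E') * ι (da : E')) * (a : E) -
        (ι (t' : E') * ι (da : E') * ι (dc : E')) * (c : E) ∈ V.nonunits
      have e1 : ι ((ta * dc : ↥(chartClosure A E' y')) : E') = ι (ta : E') * ι (dc : E') := by
        rw [← map_mul]; rfl
      have e2 : ι ((tc * da : ↥(chartClosure A E' y')) : E') = ι (tc : E') * ι (da : E') := by
        rw [← map_mul]; rfl
      rw [e1, e2] at he'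
      rw [compVal_identity (a : E) (c : E) (ι (da : E')) (ι (ta : E')) (ι (dc : E'))
        (ι (tc : E')) (ι (d' : E')) (ι (t' : E')) (ι (e : E')) (algebraMap A E ϖ) he']
      refine nu_add V (nu_sub V ?_ ?_) (hϖe e)
      · exact nu_mul_left V (V.mul_mem _ _ (hιV d') (hιV dc)) hra
      · exact nu_mul_left V (V.mul_mem _ _ (hιV t') (hιV da)) hrc
  · right
    have he' := htrans d' t' (tc * da) (ta * dc) e he
    refine ⟨⟨ι (t' : E'), hιB t'⟩ * ⟨ι (dc : E'), hιB dc⟩ * ⟨ι (da : E'), hιB da⟩,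
      ⟨ι (d' : E'), hιB d'⟩ * ⟨ι (da : E'), hιB da⟩ * ⟨ι (dc : E'), hιB dc⟩, ?_, ?_⟩
    · intro hmem
      rcases h𝔪.mem_or_mem hmem with h | h
      · exact hprod d' da (h𝔫 d' hd') hda h
      · exact hdc h
    · show (ι (d' : E') * ι (da : E') * ι (dc : E')) * (c : E) -
        (ι (t' : E') * ι (dc : E') * ι (da : E')) * (a : E) ∈ V.nonunits
      have e1 : ι ((ta * dc : ↥(chartClosure A E' y')) : E') = ι (ta : E') * ι (dc : E') := by
        rw [← map_mul]; rfl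
      have e2 : ι ((tc * da : ↥(chartClosure A E' y')) : E') = ι (tc : E') * ι (da : E') := by
        rw [← map_mul]; rfl
      rw [e1, e2] at he'
      rw [compVal_identity (c : E) (a : E) (ι (dc : E')) (ι (tc : E')) (ι (da : E'))
        (ι (ta : E')) (ι (d' : E')) (ι (t' : E')) (ι (e : E')) (algebraMap A E ϖ) he']
      refine nu_add V (nu_sub V ?_ ?_) (hϖe e)
      · exact nu_mul_left V (V.mul_mem _ _ (hιV d') (hιV da)) hrc
      · exact nu_mul_left V (V.mul_mem _ _ (hιV t') (hιV dc)) hra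

end Abs

/-- **The component `C_∞` is normal at the closed points of the chart `j`** (model form, fields
`K₁ ⊇ μ_R`, ANY discrete valuation ring `A₀` with uniformiser `ϖ`). -/
def ModelCompValStatement (M q R : ℕ) [NeZero M] [NeZero q] : Prop :=
  ∀ (K₁ : Type) [Field K₁] [Algebra ℚ K₁] [FiniteDimensional ℚ K₁]
    (A₀ : Type) [CommRing A₀] [IsDomain A₀] [IsDiscreteValuationRing A₀]
    [Algebra A₀ K₁] [IsFractionRing A₀ K₁]
    [Algebra A₀ (ModelField K₁ (M * q))] [IsScalarTower A₀ K₁ (ModelField K₁ (M * q))],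
    ¬ IsUnit ((q : ℕ) : A₀) →
    (∃ ζ : K₁, IsPrimitiveRoot ζ R) →
    ∀ (ϖ : A₀), Irreducible ϖ →
    ∀ (x : ModelField K₁ (M * q)), (x : LaurentSeries K₁) = coeffEmb K₁ jq →
    ∀ (W : ModelField K₁ (M * q) ≃ₐ[K₁] ModelField K₁ (M * q)), IsAtkinLehnerModel K₁ M q W →
    ∀ 𝔪 : Ideal (chartClosure A₀ (ModelField K₁ (M * q)) x), 𝔪.IsMaximal →
      algebraMap A₀ (chartClosure A₀ (ModelField K₁ (M * q)) x) ϖ ∈ 𝔪 →
      Through A₀ (ModelField K₁ (M * q)) x 𝔪 (vInf K₁ A₀ (M * q)) →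
      (∀ z ∈ chartClosure A₀ (ModelField K₁ (M * q)) x, ∃ a b : ModelField K₁ M,
        heckeAlphaBar K₁ M q a ∈ chartClosure A₀ (ModelField K₁ (M * q)) x ∧
        (∃ hb : heckeAlphaBar K₁ M q b ∈ chartClosure A₀ (ModelField K₁ (M * q)) x,
          (⟨heckeAlphaBar K₁ M q b, hb⟩ : chartClosure A₀ (ModelField K₁ (M * q)) x) ∉ 𝔪) ∧
        heckeAlphaBar K₁ M q b * z - heckeAlphaBar K₁ M q a ∈
          (vInf K₁ A₀ (M * q)).nonunits) ∧
      (∀ a c : chartClosure A₀ (ModelField K₁ (M * q)) x,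
        (∃ t d : chartClosure A₀ (ModelField K₁ (M * q)) x, d ∉ 𝔪 ∧
          (d : ModelField K₁ (M * q)) * (a : ModelField K₁ (M * q)) -
            (t : ModelField K₁ (M * q)) * (c : ModelField K₁ (M * q)) ∈
              (vInf K₁ A₀ (M * q)).nonunits) ∨
        (∃ t d : chartClosure A₀ (ModelField K₁ (M * q)) x, d ∉ 𝔪 ∧
          (d : ModelField K₁ (M * q)) * (c : ModelField K₁ (M * q)) -
            (t : ModelField K₁ (M * q)) * (a : ModelField K₁ (M * q)) ∈
              (vInf K₁ A₀ (M * q)).nonunits))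

/-- **Normality of `C_∞` at the closed points of the chart `j`, from the regularity of level
`M`** (valuation form `ModelLevelValStatement`). -/
theorem modelCompVal_of_levelVal (M q R : ℕ) [NeZero M] [NeZero q] (hq : q.Prime)
    (hqM : ¬ q ∣ M) (hLV : ModelLevelValStatement M q jq R) :
    ModelCompValStatement M q R := by
  intro K₁ _ _ _ A₀ _ _ _ _ _ _ _ hqA hζ ϖ hirr x hx W hW 𝔪 h𝔪 hϖ𝔪 hT₁
  haveI h𝔪p : 𝔪.IsPrime := h𝔪.isPrime
  letI : Algebra A₀ (ModelField K₁ M) :=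
    ((algebraMap K₁ (ModelField K₁ M)).comp (algebraMap A₀ K₁)).toAlgebra
  haveI : IsScalarTower A₀ K₁ (ModelField K₁ M) :=
    IsScalarTower.of_algebraMap_eq (fun _ => rfl)
  haveI : CharZero K₁ := charZero_of_injective_algebraMap (algebraMap ℚ K₁).injective
  haveI : CharZero (ModelField K₁ M) :=
    charZero_of_injective_algebraMap (algebraMap K₁ (ModelField K₁ M)).injective
  haveI : CharZero (ModelField K₁ (M * q)) :=
    charZero_of_injective_algebraMap (algebraMap K₁ (ModelField K₁ (M * q))).injective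
  -- the coordinate of level `M`
  obtain ⟨x', hx', hαx⟩ := Fermat.Agent.H65.SS.ktf_exists_level_coord M q x hx
  have hxtr : Transcendental A₀ x := Fermat.Agent.H58.modelTranscendental_jq (M * q) K₁ A₀ x hx
  -- `ι = α`
  set ι : ModelField K₁ M →+* ModelField K₁ (M * q) :=
    ((heckeAlphaBar K₁ M q : ModelField K₁ M →ₐ[K₁] ModelField K₁ (M * q)) :
      ModelField K₁ M →+* ModelField K₁ (M * q)) with hιdef
  have hιx : ι x' = x := hαx
  have hι : ∀ a : A₀, ι (algebraMap A₀ (ModelField K₁ M) a) =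
      algebraMap A₀ (ModelField K₁ (M * q)) a := by
    intro a
    rw [IsScalarTower.algebraMap_apply A₀ K₁ (ModelField K₁ M),
      IsScalarTower.algebraMap_apply A₀ K₁ (ModelField K₁ (M * q))]
    exact (heckeAlphaBar K₁ M q).commutes _
  have hαB : ∀ s' : chartClosure A₀ (ModelField K₁ M) x',
      ι (s' : ModelField K₁ M) ∈ chartClosure A₀ (ModelField K₁ (M * q)) x := by
    intro s'
    have h := ktfl_map_mem_chartClosure ι hι s'.2
    rwa [hιx] at h
  -- `B(x) ⊆ V_∞`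
  have hvert := isVertical_vInf M q K₁ A₀ hqA ϖ hirr x hx W hW
  have hBV : ∀ s : chartClosure A₀ (ModelField K₁ (M * q)) x,
      (s : ModelField K₁ (M * q)) ∈ vInf K₁ A₀ (M * q) := fun s =>
    hvert.2.2.1 _ (Fermat.Agent.H89.klg_chartClosure_le_gaussClosure hirr hxtr s.2)
  -- FRAC in the chart form
  have hFRAC : ∀ s : chartClosure A₀ (ModelField K₁ (M * q)) x,
      ∃ a' c' : chartClosure A₀ (ModelField K₁ M) x',
        ι (c' : ModelField K₁ M) ∉ (vInf K₁ A₀ (M * q)).nonunits ∧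
        ι (c' : ModelField K₁ M) * (s : ModelField K₁ (M * q)) - ι (a' : ModelField K₁ M) ∈
          (vInf K₁ A₀ (M * q)).nonunits := by
    intro s
    obtain ⟨b₁, b₂, hb₁, hb₂, hb₂m, hzm⟩ :=
      Fermat.Agent.H66.SS.modelFrac M q hq hqM K₁ A₀ hqA ϖ hirr x hx
        (s : ModelField K₁ (M * q)) (InV.exists_quot _ ((mem_vInf_iff _).1 (hBV s)))
    have hb₂u : heckeAlphaBar K₁ M q b₂ ∉ (vInf K₁ A₀ (M * q)).nonunits := by
      intro h
      exact hb₂m (Fermat.Agent.H66.SS.fv_inM_exists_quot _ ((mem_nonunits_vInf_iff _).1 h) hirr)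
    have hzm' : (s : ModelField K₁ (M * q)) * heckeAlphaBar K₁ M q b₂ -
        heckeAlphaBar K₁ M q b₁ ∈ (vInf K₁ A₀ (M * q)).nonunits :=
      (mem_nonunits_vInf_iff _).2 (Fermat.Agent.H66.SS.fv_inM_of_quot _ hirr.not_isUnit hzm)
    have hb₁' : b₁ ∈ chartClosure A₀ (ModelField K₁ M) x' := by
      apply ktfl_mem_chartClosure_of_map ι hι
      rw [hιx]
      exact hb₁
    have hb₂' : b₂ ∈ chartClosure A₀ (ModelField K₁ M) x' := by
      apply ktfl_mem_chartClosure_of_map ι hι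
      rw [hιx]
      exact hb₂
    refine ⟨⟨b₁, hb₁'⟩, ⟨b₂, hb₂'⟩, hb₂u, ?_⟩
    show heckeAlphaBar K₁ M q b₂ * (s : ModelField K₁ (M * q)) - heckeAlphaBar K₁ M q b₁ ∈
      (vInf K₁ A₀ (M * q)).nonunits
    rw [mul_comm (heckeAlphaBar K₁ M q b₂)]
    exact hzm'
  -- the contraction of `𝔪`
  have h1𝔪 : (1 : chartClosure A₀ (ModelField K₁ (M * q)) x) ∉ 𝔪 :=
    fun h => h𝔪p.ne_top ((Ideal.eq_top_iff_one _).2 h)
  have hιBloc : ∀ s' : chartClosure A₀ (ModelField K₁ M) x',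
      ∃ b : chartClosure A₀ (ModelField K₁ (M * q)) x, b ∉ 𝔪 ∧
        (b : ModelField K₁ (M * q)) * ι (s' : ModelField K₁ M) ∈
          chartClosure A₀ (ModelField K₁ (M * q)) x := by
    intro s'
    refine ⟨1, h1𝔪, ?_⟩
    have e : ((1 : chartClosure A₀ (ModelField K₁ (M * q)) x) : ModelField K₁ (M * q)) *
        ι (s' : ModelField K₁ M) = ι (s' : ModelField K₁ M) := by
      rw [OneMemClass.coe_one, one_mul]
    rw [e]
    exact hαB s'
  haveI hp' := pullIdeal_isPrime ι x' x 𝔪 hιBloc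
  have hϖ' : algebraMap A₀ (chartClosure A₀ (ModelField K₁ M) x') ϖ ∈
      pullIdeal ι x' x 𝔪 hιBloc := by
    refine ⟨1, algebraMap A₀ (chartClosure A₀ (ModelField K₁ (M * q)) x) ϖ,
      h1𝔪, hϖ𝔪, ?_⟩
    show ((1 : chartClosure A₀ (ModelField K₁ (M * q)) x) : ModelField K₁ (M * q)) *
      ι (algebraMap A₀ (ModelField K₁ M) ϖ) =
        algebraMap A₀ (ModelField K₁ (M * q)) ϖ
    rw [hι, OneMemClass.coe_one, one_mul]
  obtain ⟨g, hgm, hgirr, hg𝔪⟩ :=
    ordPoint_exists_monic A₀ (ModelField K₁ (M * q)) ϖ hirr x 𝔪 h𝔪 hϖ𝔪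
  have hg' : evB (A := A₀) x' g ∈ pullIdeal ι x' x 𝔪 hιBloc := by
    refine ⟨1, ⟨aeval x g, etale_aeval_mem_chartClosure A₀ (ModelField K₁ (M * q)) x g⟩,
      h1𝔪, hg𝔪, ?_⟩
    show ((1 : chartClosure A₀ (ModelField K₁ (M * q)) x) : ModelField K₁ (M * q)) *
      ι (aeval x' g) = aeval x g
    rw [OneMemClass.coe_one, one_mul]
    have h2 := congrArg (fun f : A₀[X] →+* ModelField K₁ (M * q) => f g)
      (ktfl_comp_evX ι hι x')
    simp only [RingHom.comp_apply, Fermat.Agent.H87.KL.evX_apply] at h2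
    rw [h2, hιx]
  have hmax' : (pullIdeal ι x' x 𝔪 hιBloc).IsMaximal :=
    isMaximal_of_isPrime_of_mem hirr g hgirr _ hϖ' hg'
  have hval := hLV K₁ A₀ hqA hζ ϖ hirr x' hx' _ hmax' hϖ'
  have h𝔫 : ∀ d : chartClosure A₀ (ModelField K₁ M) x', d ∉ pullIdeal ι x' x 𝔪 hιBloc →
      (⟨ι (d : ModelField K₁ M), hαB d⟩ : chartClosure A₀ (ModelField K₁ (M * q)) x) ∉ 𝔪 := by
    intro d hd hmem
    refine hd ⟨1, ⟨ι (d : ModelField K₁ M), hαB d⟩, h1𝔪, hmem, ?_⟩
    rw [OneMemClass.coe_one, one_mul]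
  refine ⟨?_, ?_⟩
  · intro z hz
    obtain ⟨t, d, hd, hr⟩ := ktfl_fracLocal_abs ι hι ϖ x' x 𝔪
      (vInf K₁ A₀ (M * q)) hBV hvert.2.2.2 hT₁ hαB hFRAC _ h𝔫 hval ⟨z, hz⟩
    exact ⟨t, d, hαB t, ⟨hαB d, hd⟩, hr⟩
  · intro a c
    exact compVal_abs ι hι ϖ x' x 𝔪 (vInf K₁ A₀ (M * q)) hBV hvert.2.2.2 hT₁ hαB hFRAC _ h𝔫
      hval a c

/-- **Normality of `C_∞` at the closed points of the chart `j`**, UNCONDITIONAL at every
auxiliary pair (`4 ∣ M` for `q` odd, `9 ∣ M` for `q = 2`), fields `K₁ ⊇ μ_R`,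
`R = ktAuxRoot M q`, any discrete valuation ring `A₀` (ramified allowed). -/
theorem modelCompVal_aux (M q : ℕ) [NeZero M] [NeZero q] (hq : q.Prime) (hqM : ¬ q ∣ M)
    (h4 : q ≠ 2 → 4 ∣ M) (h9 : q = 2 → 9 ∣ M) :
    ModelCompValStatement M q (ktAuxRoot M q) :=
  modelCompVal_of_levelVal M q _ hq hqM (modelLevelVal_aux M q hq hqM h4 h9)

/-- `q` odd, `2 ∣ M`, `R = 2 M`. -/
theorem modelCompVal_odd (M q : ℕ) [NeZero M] [NeZero q] (hq : q.Prime) (hq2 : q ≠ 2)
    (hqM : ¬ q ∣ M) (h2 : 2 ∣ M) : ModelCompValStatement M q (2 * M) :=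
  modelCompVal_of_levelVal M q _ hq hqM
    (modelLevelVal_j_of_t2S M q hq hq2 h2 _ (modelLevelVal_t2 M q hq hq2 hqM h2))

end Fermat.Agent.H71.ORD

end
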