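/-
helper71, P-ORD, block B1, input of [DVR] (row 1158): the component `C_0` of the special fibre of
the model of `X₀(M q)` is NORMAL at every closed point of the chart `j` - number-field core over
ANY discrete valuation ring `A₀`.  Transport of `ModelCompValStatement` (component `C_∞`) by the
Atkin-Lehner automorphism `W` (which preserves `B(j)`).

* `isAtkinLehnerModel_symm` : `W⁻¹` is an Atkin-Lehner automorphism;
* `ModelCompValZeroStatement M q R`, `modelCompValZero_of`, `modelCompValZero_aux`.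
-/
import Fermat.Agent.H71.ORD.CompVal

set_option autoImplicit false
set_option linter.unusedSectionVars false
set_option linter.unusedVariables false
set_option linter.style.haveILetI false

noncomputable section

namespace Fermat.Agent.H71.ORD

open Polynomial ModularCurve AlgebraicCurve
open Fermat.Agent.H22.KL Fermat.Agent.H66 Fermat.Agent.H55.SS Fermat.Agent.H82.SS
open Fermat.Agent.H11.SS2 Fermat.Agent.H67.SS Fermat.Agent.H7.SS Fermat.Agent.H7.SS2
open Fermat.Agent.H41.SS Fermat.Agent.H71.SS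

/-- `W⁻¹` is an Atkin-Lehner automorphism. -/
theorem isAtkinLehnerModel_symm {K₁ : Type} [Field K₁] [Algebra ℚ K₁] {M q : ℕ} [NeZero M]
    [NeZero q] {W : ModelField K₁ (M * q) ≃ₐ[K₁] ModelField K₁ (M * q)}
    (hW : IsAtkinLehnerModel K₁ M q W) : IsAtkinLehnerModel K₁ M q W.symm := by
  refine ⟨fun f => ?_, fun f => ?_⟩
  · rw [← hW.2 f]
    exact W.symm_apply_apply _
  · rw [← hW.1 f]
    exact W.symm_apply_apply _

section Abs

variable {A : Type} [CommRing A] {E : Type} [Field E] [Algebra A E]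

/-- **Transport of the normality of a component by an automorphism preserving the chart.**
`σ` an automorphism of `E` over `A` with `σ B(x) ⊆ B(x)`, `σ⁻¹ B(x) ⊆ B(x)`; `V' = σ⁻¹ V`
(i.e. `z ∈ V'.nonunits ↔ σ z ∈ V.nonunits`).  If the valuation property holds for `V` at the
maximal ideal `σ 𝔪`, it holds for `V'` at `𝔪`. -/
theorem compVal_transport (σ : E ≃+* E) (x : E)
    (hσB : ∀ z ∈ chartClosure A E x, σ z ∈ chartClosure A E x)
    (hσB' : ∀ z ∈ chartClosure A E x, σ.symm z ∈ chartClosure A E x)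
    (V V' : ValuationSubring E) (hVV' : ∀ z : E, z ∈ V'.nonunits ↔ σ z ∈ V.nonunits)
    (𝔪 𝔪' : Ideal ↥(chartClosure A E x))
    (h𝔪' : ∀ s : ↥(chartClosure A E x), s ∈ 𝔪' ↔
      (⟨σ.symm (s : E), hσB' _ s.2⟩ : ↥(chartClosure A E x)) ∈ 𝔪)
    (hval : ∀ a c : ↥(chartClosure A E x),
      (∃ t d : ↥(chartClosure A E x), d ∉ 𝔪' ∧
        (d : E) * (a : E) - (t : E) * (c : E) ∈ V.nonunits) ∨
      (∃ t d : ↥(chartClosure A E x), d ∉ 𝔪' ∧
        (d : E) * (c : E) - (t : E) * (a : E) ∈ V.nonunits))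
    (a c : ↥(chartClosure A E x)) :
    (∃ t d : ↥(chartClosure A E x), d ∉ 𝔪 ∧
      (d : E) * (a : E) - (t : E) * (c : E) ∈ V'.nonunits) ∨
    (∃ t d : ↥(chartClosure A E x), d ∉ 𝔪 ∧
      (d : E) * (c : E) - (t : E) * (a : E) ∈ V'.nonunits) := by
  have key : ∀ (u v t d : ↥(chartClosure A E x)), d ∉ 𝔪' →
      (d : E) * σ (u : E) - (t : E) * σ (v : E) ∈ V.nonunits →
      ∃ t' d' : ↥(chartClosure A E x), d' ∉ 𝔪 ∧
        (d' : E) * (u : E) - (t' : E) * (v : E) ∈ V'.nonunits := by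
    intro u v t d hd hr
    refine ⟨⟨σ.symm (t : E), hσB' _ t.2⟩, ⟨σ.symm (d : E), hσB' _ d.2⟩, ?_, ?_⟩
    · intro h
      exact hd ((h𝔪' d).2 h)
    · show σ.symm (d : E) * (u : E) - σ.symm (t : E) * (v : E) ∈ V'.nonunits
      rw [hVV', map_sub, map_mul, map_mul, σ.apply_symm_apply, σ.apply_symm_apply]
      exact hr
  rcases hval ⟨σ (a : E), hσB _ a.2⟩ ⟨σ (c : E), hσB _ c.2⟩ with
    ⟨t, d, hd, hr⟩ | ⟨t, d, hd, hr⟩
  · left
    exact key a c t d hd hr
  · right
    exact key c a t d hd hr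

end Abs

/-- **The component `C_0` is normal at the closed points of the chart `j`** (model form, fields
`K₁ ⊇ μ_R`, ANY discrete valuation ring `A₀` with uniformiser `ϖ`). -/
def ModelCompValZeroStatement (M q R : ℕ) [NeZero M] [NeZero q] : Prop :=
  ∀ (K₁ : Type) [Field K₁] [Algebra ℚ K₁] [FiniteDimensional ℚ K₁]
    (A₀ : Type) [CommRing A₀] [IsDomain A₀] [IsDiscreteValuationRing A₀]
    [Algebra A₀ K₁] [IsFractionRing A₀ K₁]
    [Algebra A₀ (ModelField K₁ (M * q))] [IsScalarTower A₀ K₁ (ModelField K₁ (M * q))],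
    ¬ IsUnit ((q : ℕ) : A₀) →
    (∃ ζ : K₁, IsPrimitiveRoot ζ R) →
    ∀ (ϖ : A₀), Irreducible ϖ →
    ∀ (x : ModelField K₁ (M * q)), (x : LaurentSeries K₁) = coeffEmb K₁ jq →
    ∀ (W : ModelField K₁ (M * q) ≃ₐ[K₁] ModelField K₁ (M * q)), IsAtkinLehnerModel K₁ M q W →
    ∀ 𝔪 : Ideal (chartClosure A₀ (ModelField K₁ (M * q)) x), 𝔪.IsMaximal →
      algebraMap A₀ (chartClosure A₀ (ModelField K₁ (M * q)) x) ϖ ∈ 𝔪 →
      Through A₀ (ModelField K₁ (M * q)) x 𝔪 (vZero K₁ A₀ (M * q) W) →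
      (∀ z ∈ chartClosure A₀ (ModelField K₁ (M * q)) x, ∃ a b : ModelField K₁ M,
        heckeBetaBar K₁ M q a ∈ chartClosure A₀ (ModelField K₁ (M * q)) x ∧
        (∃ hb : heckeBetaBar K₁ M q b ∈ chartClosure A₀ (ModelField K₁ (M * q)) x,
          (⟨heckeBetaBar K₁ M q b, hb⟩ : chartClosure A₀ (ModelField K₁ (M * q)) x) ∉ 𝔪) ∧
        heckeBetaBar K₁ M q b * z - heckeBetaBar K₁ M q a ∈
          (vZero K₁ A₀ (M * q) W).nonunits) ∧
      (∀ a c : chartClosure A₀ (ModelField K₁ (M * q)) x,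
        (∃ t d : chartClosure A₀ (ModelField K₁ (M * q)) x, d ∉ 𝔪 ∧
          (d : ModelField K₁ (M * q)) * (a : ModelField K₁ (M * q)) -
            (t : ModelField K₁ (M * q)) * (c : ModelField K₁ (M * q)) ∈
              (vZero K₁ A₀ (M * q) W).nonunits) ∨
        (∃ t d : chartClosure A₀ (ModelField K₁ (M * q)) x, d ∉ 𝔪 ∧
          (d : ModelField K₁ (M * q)) * (c : ModelField K₁ (M * q)) -
            (t : ModelField K₁ (M * q)) * (a : ModelField K₁ (M * q)) ∈
              (vZero K₁ A₀ (M * q) W).nonunits))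

/-- **Normality of `C_0` from the normality of `C_∞`** (transport by `W`). -/
theorem modelCompValZero_of (M q R : ℕ) [NeZero M] [NeZero q]
    (h : ModelCompValStatement M q R) : ModelCompValZeroStatement M q R := by
  intro K₁ _ _ _ A₀ _ _ _ _ _ _ _ hqA hζ ϖ hirr x hx W hW 𝔪 h𝔪 hϖ𝔪 hT
  have hWs := isAtkinLehnerModel_symm hW
  have hWB : ∀ z ∈ chartClosure A₀ (ModelField K₁ (M * q)) x,
      W z ∈ chartClosure A₀ (ModelField K₁ (M * q)) x :=
    Fermat.Agent.H65.SS.ktf_W_chart M q x hx W hW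
  have hWB' : ∀ z ∈ chartClosure A₀ (ModelField K₁ (M * q)) x,
      W.symm z ∈ chartClosure A₀ (ModelField K₁ (M * q)) x :=
    Fermat.Agent.H65.SS.ktf_W_chart M q x hx W.symm hWs
  -- the ring homomorphism `W⁻¹ : B → B`
  obtain ⟨ω, hω⟩ : ∃ ω : chartClosure A₀ (ModelField K₁ (M * q)) x →+*
      chartClosure A₀ (ModelField K₁ (M * q)) x,
      ∀ s : chartClosure A₀ (ModelField K₁ (M * q)) x,
        ω s = ⟨W.symm (s : ModelField K₁ (M * q)), hWB' _ s.2⟩ :=
    ⟨{ toFun := fun s => ⟨W.symm (s : ModelField K₁ (M * q)), hWB' _ s.2⟩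
       map_one' := Subtype.ext (map_one W.symm)
       map_mul' := fun a b => Subtype.ext (map_mul W.symm _ _)
       map_zero' := Subtype.ext (map_zero W.symm)
       map_add' := fun a b => Subtype.ext (map_add W.symm _ _) }, fun s => rfl⟩
  have hsurj : Function.Surjective ω := by
    intro s
    refine ⟨⟨W (s : ModelField K₁ (M * q)), hWB _ s.2⟩, ?_⟩
    rw [hω]
    exact Subtype.ext (W.symm_apply_apply _)
  haveI := h𝔪
  have hmax : (𝔪.comap ω).IsMaximal := Ideal.comap_isMaximal_of_surjective ω hsurj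
  have hmem : ∀ s : chartClosure A₀ (ModelField K₁ (M * q)) x, s ∈ 𝔪.comap ω ↔
      (⟨W.symm (s : ModelField K₁ (M * q)), hWB' _ s.2⟩ :
        chartClosure A₀ (ModelField K₁ (M * q)) x) ∈ 𝔪 := by
    intro s
    rw [Ideal.mem_comap, hω]
  have hAfix : ∀ a : A₀, W.symm (algebraMap A₀ (ModelField K₁ (M * q)) a) =
      algebraMap A₀ (ModelField K₁ (M * q)) a := by
    intro a
    rw [IsScalarTower.algebraMap_apply A₀ K₁ (ModelField K₁ (M * q))]
    exact W.symm.commutes _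
  have hϖ' : algebraMap A₀ (chartClosure A₀ (ModelField K₁ (M * q)) x) ϖ ∈ 𝔪.comap ω := by
    rw [hmem]
    have e : (⟨W.symm ((algebraMap A₀ (chartClosure A₀ (ModelField K₁ (M * q)) x) ϖ :
        chartClosure A₀ (ModelField K₁ (M * q)) x) : ModelField K₁ (M * q)), hWB' _
          (algebraMap A₀ (chartClosure A₀ (ModelField K₁ (M * q)) x) ϖ).2⟩ :
        chartClosure A₀ (ModelField K₁ (M * q)) x) =
        algebraMap A₀ (chartClosure A₀ (ModelField K₁ (M * q)) x) ϖ := by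
      apply Subtype.ext
      exact hAfix ϖ
    rw [e]
    exact hϖ𝔪
  have hnu : ∀ z : ModelField K₁ (M * q), z ∈ (vZero K₁ A₀ (M * q) W).nonunits ↔
      W z ∈ (vInf K₁ A₀ (M * q)).nonunits := fun z => mem_nonunits_vZero_iff W z
  have hT' : Through A₀ (ModelField K₁ (M * q)) x (𝔪.comap ω) (vInf K₁ A₀ (M * q)) := by
    intro s hs
    rw [hmem]
    apply hT
    show W.symm (s : ModelField K₁ (M * q)) ∈ (vZero K₁ A₀ (M * q) W).nonunits
    rw [hnu, W.apply_symm_apply]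
    exact hs
  obtain ⟨hF, hV⟩ := h K₁ A₀ hqA hζ ϖ hirr x hx W hW (𝔪.comap ω) hmax hϖ' hT'
  refine ⟨?_, ?_⟩
  · intro z hz
    obtain ⟨a, b, ha, ⟨hb, hbm⟩, hr⟩ := hF (W z) (hWB z hz)
    have eβa : heckeBetaBar K₁ M q a = W (heckeAlphaBar K₁ M q a) := (hW.1 a).symm
    have eβb : heckeBetaBar K₁ M q b = W (heckeAlphaBar K₁ M q b) := (hW.1 b).symm
    have eαa : W.symm (heckeAlphaBar K₁ M q a) = heckeBetaBar K₁ M q a := hWs.1 a
    have eαb : W.symm (heckeAlphaBar K₁ M q b) = heckeBetaBar K₁ M q b := hWs.1 b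
    have hβa : heckeBetaBar K₁ M q a ∈ chartClosure A₀ (ModelField K₁ (M * q)) x := by
      rw [← eαa]
      exact hWB' _ ha
    have hβb : heckeBetaBar K₁ M q b ∈ chartClosure A₀ (ModelField K₁ (M * q)) x := by
      rw [← eαb]
      exact hWB' _ hb
    refine ⟨a, b, hβa, ⟨hβb, ?_⟩, ?_⟩
    · intro hmem'
      apply hbm
      rw [hmem]
      have e : (⟨W.symm ((⟨heckeAlphaBar K₁ M q b, hb⟩ :
          chartClosure A₀ (ModelField K₁ (M * q)) x) : ModelField K₁ (M * q)), hWB' _ hb⟩ :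
          chartClosure A₀ (ModelField K₁ (M * q)) x) = ⟨heckeBetaBar K₁ M q b, hβb⟩ :=
        Subtype.ext eαb
      rw [e]
      exact hmem'
    · rw [hnu, map_sub, map_mul, hW.2 b, hW.2 a]
      exact hr
  · intro a c
    exact compVal_transport (W : ModelField K₁ (M * q) ≃+* ModelField K₁ (M * q)) x hWB hWB'
      (vInf K₁ A₀ (M * q)) (vZero K₁ A₀ (M * q) W) hnu 𝔪 (𝔪.comap ω) hmem hV a c

/-- **Normality of `C_0` at the closed points of the chart `j`**, UNCONDITIONAL at every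
auxiliary pair, `R = ktAuxRoot M q`. -/
theorem modelCompValZero_aux (M q : ℕ) [NeZero M] [NeZero q] (hq : q.Prime) (hqM : ¬ q ∣ M)
    (h4 : q ≠ 2 → 4 ∣ M) (h9 : q = 2 → 9 ∣ M) :
    ModelCompValZeroStatement M q (ktAuxRoot M q) :=
  modelCompValZero_of M q _ (modelCompVal_aux M q hq hqM h4 h9)

/-- `q` odd, `2 ∣ M`, `R = 2 M`. -/
theorem modelCompValZero_odd (M q : ℕ) [NeZero M] [NeZero q] (hq : q.Prime) (hq2 : q ≠ 2)
    (hqM : ¬ q ∣ M) (h2 : 2 ∣ M) : ModelCompValZeroStatement M q (2 * M) :=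
  modelCompValZero_of M q _ (modelCompVal_odd M q hq hq2 hqM h2)

end Fermat.Agent.H71.ORD

end
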