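/-
helper71, P-ORD (S33), block B1, row 1158 [DVR] (route of helper82: VAL + RRHyp ⟹ DVR):
THE CUSP CORE of helper41's descent (`Fermat.Agent.H41.ORD.nmValOo_of_cusp`).

* `valCusp_abs` (abstract, two levels `ι : E' → E`, chart `y = ι y'`) : at a prime ideal
  `𝔪 ∋ ϖ, y` of `B(y)`, for EVERY `z` of the valuation ring `V` (with `ι⁻¹ V = C'(y')`, FRAC for
  `(ι, V)`, good basis and branch hypothesis of level `E'` at the point `y' = 0`) there are
  `t, d ∈ B(y)`, `d ∉ 𝔪`, with `d z ≡ t` or `d ≡ t z` modulo `𝔪_V`.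
  Proof: helper67's `localDVR` at the contraction of `𝔪` (the special fibre of the lower level
  is a discrete valuation ring at the cusp: `ValAt`) and FRAC.
* `modelValGen_cusp_of_dvd` : `Fermat.Agent.H41.ORD.ModelValGenStatement M q R jq⁻¹ True` for
  every prime `q ∤ M` and every `R` divisible by `M`;
* `modelValGen_cusp` : the case `R = ktAuxRoot M q` (the exact input of
  `Fermat.Agent.H41.ORD.nmValOo_of_cusp`).
-/
import Fermat.Agent.H67.SS.CuspRegFinal
import Fermat.Agent.H41.ORD.ValCore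
import Fermat.Agent.H71.SS.KtNodeMono

set_option autoImplicit false
set_option linter.unusedSectionVars false
set_option linter.unusedVariables false
set_option linter.style.haveILetI false

noncomputable section

namespace Fermat.Agent.H71.ORD

open Polynomial ModularCurve AlgebraicCurve
open Fermat.Agent.H22.KL Fermat.Agent.H45 Fermat.Agent.H7.SS Fermat.Agent.H48.QExp
open Fermat.Agent.H82.SS Fermat.Agent.H41.SS Fermat.Agent.H67.SS Fermat.Agent.H71.SS
open Fermat.Agent.H67.KLConn (PiDvd)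

section Abs

variable {A : Type} [CommRing A] [IsDomain A] [IsDiscreteValuationRing A]
  {E' : Type} [Field E'] [Algebra A E'] [CharZero E']
  {E : Type} [Field E] [Algebra A E] [CharZero E]

/-- The two algebraic identities behind `valCusp_abs`. -/
theorem valCusp_identity₁ {S : Type} [CommRing S] (c a d t z p e : S)
    (he : d * a = t * c + p * e) :
    c * (d * z - t) = d * (c * z - a) + p * e := by
  linear_combination he

theorem valCusp_identity₂ {S : Type} [CommRing S] (c a d t z p e : S)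
    (he : d * c = t * a + p * e) :
    c * (d - t * z) = p * e - t * (c * z - a) := by
  linear_combination he

/-- **The component is a valuation ring at a cuspidal point** (abstract, two levels). -/
theorem valCusp_abs
    (hinj' : Function.Injective (algebraMap A E'))
    (ι : E' →+* E) (hι : ∀ a : A, ι (algebraMap A E' a) = algebraMap A E a)
    {ϖ : A} (hϖ : Irreducible ϖ) {y' : E'} {y : E} (hιy : ι y' = y)
    (hy' : Transcendental A y')
    (hfd' : ∃ n : ℕ, Nonempty (Module.Basis (Fin n) (chartField A E' y') E'))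
    (hGB' : GoodBasis A E' ϖ y') (hBr' : BranchHypAt A E' ϖ y' (X : A[X]))
    (V : ValuationSubring E)
    (hdiv : ∀ z ∈ V.nonunits, z / algebraMap A E ϖ ∈ V)
    (hπ : algebraMap A E ϖ ∈ V.nonunits)
    (hGC' : ∀ z' ∈ gaussClosure A E' ϖ y', ι z' ∈ V)
    (hQ' : ∀ z' : E', ι z' ∈ V → z' ∈ gaussClosure A E' ϖ y')
    (hFR : ∀ z ∈ V, ∃ z' : E', ι z' ∈ V ∧ z - ι z' ∈ V.nonunits)
    (𝔪 : Ideal ↥(chartClosure A E y)) [h𝔪p : 𝔪.IsPrime]
    (hϖ𝔪 : algebraMap A ↥(chartClosure A E y) ϖ ∈ 𝔪)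
    (hyB : y ∈ chartClosure A E y) (hy𝔪 : (⟨y, hyB⟩ : ↥(chartClosure A E y)) ∈ 𝔪)
    (z : E) (hz : z ∈ V) :
    ∃ t d : ↥(chartClosure A E y), d ∉ 𝔪 ∧
      ((d : E) * z - (t : E) ∈ V.nonunits ∨ (d : E) - (t : E) * z ∈ V.nonunits) := by
  classical
  have hαB : ∀ s' : ↥(chartClosure A E' y'), ι (s' : E') ∈ chartClosure A E y := by
    intro s'
    have h := map_mem_chartClosure ι hι s'.2
    rwa [hιy] at h
  have hιV : ∀ s' : ↥(chartClosure A E' y'), ι (s' : E') ∈ V := fun s' =>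
    hGC' _ (Fermat.Agent.H89.klg_chartClosure_le_gaussClosure hϖ hy' s'.2)
  -- the contraction of `𝔪`
  have h1𝔪 : (1 : ↥(chartClosure A E y)) ∉ 𝔪 :=
    fun h => h𝔪p.ne_top ((Ideal.eq_top_iff_one _).2 h)
  have hιBloc : ∀ s' : ↥(chartClosure A E' y'),
      ∃ b : ↥(chartClosure A E y), b ∉ 𝔪 ∧ (b : E) * ι (s' : E') ∈ chartClosure A E y := by
    intro s'
    refine ⟨1, h1𝔪, ?_⟩
    have e : ((1 : ↥(chartClosure A E y)) : E) * ι (s' : E') = ι (s' : E') := by
      rw [OneMemClass.coe_one, one_mul]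
    rw [e]
    exact hαB s'
  haveI hp' := pullIdeal_isPrime ι y' y 𝔪 hιBloc
  have hϖ' : algebraMap A ↥(chartClosure A E' y') ϖ ∈ pullIdeal ι y' y 𝔪 hιBloc := by
    refine ⟨1, algebraMap A ↥(chartClosure A E y) ϖ, h1𝔪, hϖ𝔪, ?_⟩
    show ((1 : ↥(chartClosure A E y)) : E) * ι (algebraMap A E' ϖ) = algebraMap A E ϖ
    rw [hι, OneMemClass.coe_one, one_mul]
  have hgirr : Irreducible ((X : A[X]).map (IsLocalRing.residue A)) := by
    rw [Polynomial.map_X]
    exact Polynomial.irreducible_X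
  have hg' : evB (A := A) y' X ∈ pullIdeal ι y' y 𝔪 hιBloc := by
    refine ⟨1, ⟨y, hyB⟩, h1𝔪, hy𝔪, ?_⟩
    show ((1 : ↥(chartClosure A E y)) : E) * ι (aeval y' (X : A[X])) = y
    rw [OneMemClass.coe_one, one_mul, aeval_X, hιy]
  have hmax' : (pullIdeal ι y' y 𝔪 hιBloc).IsMaximal :=
    isMaximal_of_isPrime_of_mem hϖ X hgirr _ hϖ' hg'
  obtain ⟨U', -, -, hval⟩ :=
    localDVR hinj' hϖ hy' hfd' (hMax_of_val hinj' ι hι hϖ V hdiv hGC' hQ') X monic_X hgirr
      (Fermat.Agent.H70.KL.normalityAtFull A E' hinj' ϖ hϖ y' hy' hGB' X monic_X hgirr hBr')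
      _ hmax' hϖ' hg'
  have h𝔫 : ∀ d : ↥(chartClosure A E' y'), d ∉ pullIdeal ι y' y 𝔪 hιBloc →
      (⟨ι (d : E'), hαB d⟩ : ↥(chartClosure A E y)) ∉ 𝔪 := by
    intro d hd hmem
    refine hd ⟨1, ⟨ι (d : E'), hαB d⟩, h1𝔪, hmem, ?_⟩
    rw [OneMemClass.coe_one, one_mul]
  -- FRAC for `z`
  obtain ⟨z', hz'V, hzz'⟩ := hFR z hz
  obtain ⟨h, hh, hnd, hhz⟩ := hQ' z' hz'V
  have hhB : h ∈ chartClosure A E' y' := by
    obtain ⟨H, rfl⟩ := (Fermat.Agent.H87.KL.mem_chartRing_iff y' h).1 hh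
    exact etale_aeval_mem_chartClosure A E' y' H
  have hcu : ι h ∉ V.nonunits := unit_of_primitive ι V hGC' h hh hnd
  have hcV : ι h ∈ V := hιV ⟨h, hhB⟩
  have hfr : ι h * z - ι (h * z') ∈ V.nonunits := by
    have e1 : ι h * z - ι (h * z') = ι h * (z - ι z') := by
      rw [map_mul]
      ring
    rw [e1]
    exact nu_mul_left V hcV hzz'
  have hϖe : ∀ e : ↥(chartClosure A E' y'), algebraMap A E ϖ * ι (e : E') ∈ V.nonunits := by
    intro e
    rw [mul_comm]
    exact nu_mul_left V (hιV e) hπ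
  -- transport of an identity of the lower level
  have htrans : ∀ d' t' u v e : ↥(chartClosure A E' y'),
      d' * u = t' * v + algebraMap A ↥(chartClosure A E' y') ϖ * e →
      ι (d' : E') * ι (u : E') = ι (t' : E') * ι (v : E') + algebraMap A E ϖ * ι (e : E') := by
    intro d' t' u v e he
    have h1 : ι ((d' * u : ↥(chartClosure A E' y')) : E') =
        ι ((t' * v + algebraMap A ↥(chartClosure A E' y') ϖ * e :
          ↥(chartClosure A E' y')) : E') := by rw [he]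
    have e1 : ((d' * u : ↥(chartClosure A E' y')) : E') = (d' : E') * (u : E') := rfl
    have e2 : ((t' * v + algebraMap A ↥(chartClosure A E' y') ϖ * e :
        ↥(chartClosure A E' y')) : E') =
        (t' : E') * (v : E') + algebraMap A E' ϖ * (e : E') := rfl
    rw [e1, e2, map_mul, map_add, map_mul, map_mul, hι] at h1
    exact h1
  rcases hval ⟨h * z', hhz⟩ ⟨h, hhB⟩ with ⟨t', d', hd', e, he⟩ | ⟨t', d', hd', e, he⟩
  · have he' := htrans d' t' ⟨h * z', hhz⟩ ⟨h, hhB⟩ e he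
    refine ⟨⟨ι (t' : E'), hαB t'⟩, ⟨ι (d' : E'), hαB d'⟩, h𝔫 d' hd', Or.inl ?_⟩
    apply nu_cancel V hcV hcu
    show ι h * (ι (d' : E') * z - ι (t' : E')) ∈ V.nonunits
    rw [valCusp_identity₁ (ι h) (ι (h * z')) (ι (d' : E')) (ι (t' : E')) z
      (algebraMap A E ϖ) (ι (e : E')) he']
    exact nu_add V (nu_mul_left V (hιV d') hfr) (hϖe e)
  · have he' := htrans d' t' ⟨h, hhB⟩ ⟨h * z', hhz⟩ e he
    refine ⟨⟨ι (t' : E'), hαB t'⟩, ⟨ι (d' : E'), hαB d'⟩, h𝔫 d' hd', Or.inr ?_⟩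
    apply nu_cancel V hcV hcu
    show ι h * (ι (d' : E') - ι (t' : E') * z) ∈ V.nonunits
    rw [valCusp_identity₂ (ι h) (ι (h * z')) (ι (d' : E')) (ι (t' : E')) z
      (algebraMap A E ϖ) (ι (e : E')) he']
    exact nu_sub V (hϖe e) (nu_mul_left V (hιV t') hfr)

end Abs

/-- **The cusp core of [DVR]** : chart `1/j`, maximal ideals containing `1/j`, every prime
`q ∤ M`, fields `K₁ ⊇ μ_R` with `M ∣ R`, ANY discrete valuation ring `A₀` of `K₁` over `q`. -/
theorem modelValGen_cusp_of_dvd (M q : ℕ) [NeZero M] [NeZero q] (hq : q.Prime) (hqM : ¬ q ∣ M)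
    (R : ℕ) (hR : 0 < R) (hMR : M ∣ R) :
    Fermat.Agent.H41.ORD.ModelValGenStatement M q R (jq)⁻¹ True := by
  intro K₁ _ _ _ A₀ _ _ _ _ _ _ _ hqA hζR ϖ hϖ x hx W hW 𝔪 h𝔪 hϖ𝔪 hT hx𝔪 z hz
  have hζ : ∃ ζ : K₁, IsPrimitiveRoot ζ M := ktfl_exists_primitiveRoot_of_dvd hMR hR hζR
  haveI h𝔪p : 𝔪.IsPrime := h𝔪.isPrime
  -- the algebra structure of level `M`
  letI algM : Algebra A₀ (ModelField K₁ M) :=
    ((algebraMap K₁ (ModelField K₁ M)).comp (algebraMap A₀ K₁)).toAlgebra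
  haveI towM : IsScalarTower A₀ K₁ (ModelField K₁ M) :=
    IsScalarTower.of_algebraMap_eq (fun _ => rfl)
  haveI cz : CharZero K₁ := charZero_of_injective_algebraMap (algebraMap ℚ K₁).injective
  haveI czM : CharZero (ModelField K₁ M) :=
    charZero_of_injective_algebraMap (algebraMap K₁ (ModelField K₁ M)).injective
  haveI czMq : CharZero (ModelField K₁ (M * q)) :=
    charZero_of_injective_algebraMap (algebraMap K₁ (ModelField K₁ (M * q))).injective
  have hφ : Function.Injective (algebraMap A₀ K₁) := IsFractionRing.injective A₀ K₁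
  have hinj' : Function.Injective (algebraMap A₀ (ModelField K₁ M)) := by
    rw [IsScalarTower.algebraMap_eq A₀ K₁ (ModelField K₁ M)]
    exact (algebraMap K₁ (ModelField K₁ M)).injective.comp hφ
  -- the coordinate of level `M`
  have hjq : jq ∈ modularFunctionFieldFull M := by
    have h := jqd_mem_full M (one_dvd M)
    rwa [qExpand_one_apply] at h
  obtain ⟨x', hx'⟩ : ∃ x' : ModelField K₁ M, (x' : LaurentSeries K₁) = coeffEmb K₁ jq :=
    ⟨⟨coeffEmb K₁ jq, coeffEmb_mem_laurentBaseChange K₁ hjq⟩, rfl⟩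
  have hxα : x = (heckeAlphaBar K₁ M q x')⁻¹ := by
    apply Subtype.ext
    rw [hx, map_inv₀]
    show (coeffEmb K₁ jq)⁻¹ =
      (((heckeAlphaBar K₁ M q x' : ModelField K₁ (M * q)) : LaurentSeries K₁))⁻¹
    rw [coe_heckeAlphaBar, hx']
  subst hxα
  -- the leaves
  obtain ⟨hy', -, hfd', -, hGB', hBr', -⟩ :=
    Fermat.Agent.H42.SS.modelCuspChart M q hq hqM K₁ A₀ hqA hζ ϖ hϖ x' hx'
  obtain ⟨-, -, hQ', hGC', hϖV, hdiv, -, hFR⟩ :=
    modelCuspGaussV M q hq hqM K₁ A₀ hqA ϖ hϖ x' hx' W hW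
  have hα : ∀ a : A₀, (heckeAlphaBar K₁ M q : ModelField K₁ M →+* ModelField K₁ (M * q))
      (algebraMap A₀ (ModelField K₁ M) a) = algebraMap A₀ (ModelField K₁ (M * q)) a := by
    intro a
    rw [IsScalarTower.algebraMap_apply A₀ K₁ (ModelField K₁ M),
      IsScalarTower.algebraMap_apply A₀ K₁ (ModelField K₁ (M * q))]
    exact (heckeAlphaBar K₁ M q).commutes _
  have hV : Fermat.Agent.H7.SS2.vInf K₁ A₀ (M * q) = gaussValM K₁ A₀ (M * q) := rfl
  rw [hV] at hz ⊢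
  exact valCusp_abs hinj'
    (heckeAlphaBar K₁ M q : ModelField K₁ M →+* ModelField K₁ (M * q)) hα hϖ
    (y' := x'⁻¹) (y := (heckeAlphaBar K₁ M q x')⁻¹) (map_inv₀ _ _) hy' hfd' hGB' hBr'
    (gaussValM K₁ A₀ (M * q)) hdiv hϖV hGC' hQ' hFR 𝔪 hϖ𝔪 _ (hx𝔪 trivial) z hz

/-- **The cusp core of [DVR]** at `R = ktAuxRoot M q` : the exact hypothesis `hcusp` of
helper41's `Fermat.Agent.H41.ORD.nmValOo_of_cusp` / `nmValOo_chartInv`.  Every prime `q ∤ M`. -/
theorem modelValGen_cusp (M q : ℕ) [NeZero M] [NeZero q] (hq : q.Prime) (hqM : ¬ q ∣ M) :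
    Fermat.Agent.H41.ORD.ModelValGenStatement M q (ktAuxRoot M q) (jq)⁻¹ True := by
  refine modelValGen_cusp_of_dvd M q hq hqM (ktAuxRoot M q) (ktAuxRoot_pos M q) ?_
  unfold ktAuxRoot
  split_ifs
  · exact Dvd.intro_left 3 rfl
  · exact Dvd.intro_left 2 rfl

end Fermat.Agent.H71.ORD
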