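/-
helper71, P-ORD (S33), block B1, row 1158 [DVR] : **[VAL], component `∞`, UNCONDITIONAL**.

`nmValOo : Fermat.Agent.H41.ORD.NmValOoStatement M p` : at every centre on `C_∞` of the nodal
model of `X₀(M p)`, `red_∞ (B̄_𝔪)` is a valuation ring of `F_∞`; and
`nmDvrOo : Fermat.Agent.H84.ORD.NmDvrOoStatement M p` (with helper82's `nmDvrOo_of_val`).  Wiring of
helper41's descent `Fermat.Agent.H41.ORD.nmValOo_of_cusp` (chart `j` : `modelValGen_j`), the cusp
core `Fermat.Agent.H71.ORD.modelValGen_cusp` and helper20's `Fermat.Agent.H20.ORD.nmSoft`.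
-/
import Fermat.Agent.H41.ORD.NmValChart
import Fermat.Agent.H71.ORD.ValCusp
import Fermat.Agent.H20.ORD.NmSoft
import Fermat.Agent.H82.ORD.NmDvrAbs

set_option autoImplicit false

noncomputable section

namespace Fermat.Agent.H71.ORD

open Fermat.Agent.H84.ORD Fermat.Agent.H41.ORD

/-- **[VAL], component `∞`** : `red_∞ (B̄_𝔪)` is a valuation ring at every centre on `C_∞`
(chart `j` and cusps), unconditional. -/
theorem nmValOo (M p : ℕ) [NeZero M] [NeZero p] : NmValOoStatement M p := by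
  intro A h P hI z
  have hp : p.Prime := h.prime
  have hpM : ¬ p ∣ M := (Nat.Prime.coprime_iff_not_dvd hp).1 h.cop.symm
  exact nmValOo_of_cusp (modelValGen_cusp M p hp hpM) (Fermat.Agent.H20.ORD.nmSoft M p)
    A h P hI z

/-- **[DVR], component `∞`, UNCONDITIONAL** : over every centre on `C_∞` there is a place `Q` of
`F_∞` with `O_Q ⊆ red_∞ (B̄_𝔪)` (helper82's "VAL ⟹ DVR" applied to `nmValOo`). -/
theorem nmDvrOo (M p : ℕ) [NeZero M] [NeZero p] : NmDvrOoStatement M p :=
  Fermat.Agent.H82.ORD.nmDvrOo_of_val (Fermat.Agent.H20.ORD.nmSoft M p) (nmValOo M p)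

end Fermat.Agent.H71.ORD
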